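import Fermat.Agent.S59.H105.OpsComm
import Fermat.Agent.S38.H719.UqCrossR

/-!
# Row HARD, cell HECKE, leaf IA-CTRL / row S59 cell TW leaf CTRL: the leaf CROSS  (helper903)

`cross903 : S59.H105.CrossStatement` — for `q ∤ N` and `q' ∣ N` (both prime) the operator `U_{q'}`
commutes with the four degeneracy maps `r₁, r₂, t₁, t₂` between the levels `N` and `N q`.

This is the adapter between helper105's frozen hypothesis `CrossStatement` of `one_step`
(vocabulary `UK (Gamma0 M) q'` of helper653) and helper719's `Uq_r₁, Uq_r₂, Uq_t₁, Uq_t₂`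
(vocabulary `Uq` of `S59/H105/UqSystem.lean`).  Unconditional.
-/

set_option autoImplicit false

namespace Fermat.Agent.S38.H903

open CongruenceSubgroup
open Fermat.Agent.S41.Spec Fermat.Agent.S59.H105 Fermat.Agent.S59.TW.H653
open scoped MatrixGroups

/-- `U_q` of helper653 at `K = Γ₀(M)` is `Uq` of helper105. -/
theorem UK_Gamma0_eq_Uq903 {M q : ℕ} [Fact q.Prime] (hq : q ∣ M) {A : Type*} [AddCommGroup A]
    (ψ : Additive (Gamma0 M) →+ A) : UK (Gamma0 M) q ψ = Uq hq ψ := by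
  rw [UK_Gamma0_eq hq]
  rfl

/-- **CROSS**: `U_{q'}`, `q' ∣ N`, commutes with the degeneracy maps between the levels `N` and
`N q`, `q ∤ N`. -/
theorem cross903 : Fermat.Agent.S59.H105.CrossStatement := by
  intro N q q' _ _ hqN hq'N A _
  have hq : q.Prime := Fact.out
  have hq' : q'.Prime := Fact.out
  have hq'Nq : q' ∣ N * q := Dvd.dvd.mul_right hq'N q
  have hne : q ≠ q' := by
    rintro rfl
    exact hqN hq'N
  have hcop : Nat.Coprime q q' := (Nat.coprime_primes hq hq').mpr hne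
  refine ⟨fun φ => ⟨?_, ?_⟩, fun ψ => ⟨?_, ?_⟩⟩
  · rw [UK_Gamma0_eq_Uq903 hq'Nq, UK_Gamma0_eq_Uq903 hq'N]
    exact Fermat.Agent.S38.H719.Uq_r₁ hq'N hq'Nq φ
  · rw [UK_Gamma0_eq_Uq903 hq'Nq, UK_Gamma0_eq_Uq903 hq'N]
    exact Fermat.Agent.S38.H719.Uq_r₂ hq.ne_zero hcop hq'N hq'Nq φ
  · rw [UK_Gamma0_eq_Uq903 hq'Nq, UK_Gamma0_eq_Uq903 hq'N]
    exact Fermat.Agent.S38.H719.Uq_t₁ hq hqN hq'N hq'Nq ψ
  · rw [UK_Gamma0_eq_Uq903 hq'Nq, UK_Gamma0_eq_Uq903 hq'N]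
    exact Fermat.Agent.S38.H719.Uq_t₂ hq.ne_zero hq'N hq'Nq ψ

end Fermat.Agent.S38.H903
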